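/-
S16 piece EisForm (helper8), part 1: the function `τ ↦ p E₂(pτ) - E₂(τ)` and its translates
under `SL(2,ℤ)` (via the Hermite decomposition of `S28/Hermite.lean`).
-/
import Mathlib
import Fermat.Agent.S16.Defs
import Fermat.Agent.S28.Hermite

set_option autoImplicit false

namespace Fermat.Agent.S16

open UpperHalfPlane hiding I
open ModularForm EisensteinSeries Filter Complex
open scoped Real Topology MatrixGroups ModularForm

/-- Slash of weight `2` by an upper triangular matrix with natural diagonal entries. -/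
lemma eisAux_slash_upper (f : ℍ → ℂ) (e d : ℕ) (b : ℤ) (hed : (e : ℝ) * (d : ℝ) ≠ 0) (τ : ℍ) :
    (f ∣[(2 : ℤ)] upperTriangularGL (e : ℝ) (b : ℝ) (d : ℝ) hed) τ =
      f (upperTriangularGL (e : ℝ) (b : ℝ) (d : ℝ) hed • τ) * ((e : ℂ) * (d : ℂ)) *
        ((d : ℂ) ^ 2)⁻¹ := by
  have hdet : ((upperTriangularGL (e : ℝ) (b : ℝ) (d : ℝ) hed).det : ℝ) = e * d := by
    rw [Matrix.GeneralLinearGroup.val_det_apply, val_upperTriangularGL, Matrix.det_fin_two_of]
    ring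
  have hpos : 0 < ((upperTriangularGL (e : ℝ) (b : ℝ) (d : ℝ) hed).det : ℝ) := by
    rw [hdet]
    have h1 : (0 : ℝ) ≤ (e : ℝ) * (d : ℝ) := by positivity
    exact lt_of_le_of_ne h1 (Ne.symm hed)
  have hσ : UpperHalfPlane.σ (upperTriangularGL (e : ℝ) (b : ℝ) (d : ℝ) hed) = .refl ℝ ℂ := by
    rw [UpperHalfPlane.σ, if_pos hpos]
  have hden : denom (upperTriangularGL (e : ℝ) (b : ℝ) (d : ℝ) hed) τ = d := by
    simp [denom, val_upperTriangularGL]
  rw [ModularForm.slash_apply, hσ, hden, hdet]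
  have habs : |(e : ℝ) * (d : ℝ)| = (e : ℝ) * (d : ℝ) := abs_of_nonneg (by positivity)
  rw [habs]
  simp only [ContinuousAlgEquiv.refl_apply]
  rw [show ((2 : ℤ) - 1) = ((1 : ℕ) : ℤ) by norm_num, zpow_natCast,
    show (-(2 : ℤ)) = -((2 : ℕ) : ℤ) by norm_num, zpow_neg, zpow_natCast]
  push_cast
  ring

/-- Coordinates of `U • τ` for an upper triangular `U` with natural diagonal entries. -/
lemma eisAux_coe_upper_smul (g e : ℕ) (b : ℤ) (hne : (g : ℝ) * (e : ℝ) ≠ 0) (τ : ℍ) :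
    ((upperTriangularGL (g : ℝ) (b : ℝ) (e : ℝ) hne • τ : ℍ) : ℂ) =
      ((g : ℂ) * (τ : ℂ) + (b : ℂ)) / (e : ℂ) := by
  have hdet : ((upperTriangularGL (g : ℝ) (b : ℝ) (e : ℝ) hne).det : ℝ) = g * e := by
    rw [Matrix.GeneralLinearGroup.val_det_apply, val_upperTriangularGL, Matrix.det_fin_two_of]
    ring
  have hpos : 0 < ((upperTriangularGL (g : ℝ) (b : ℝ) (e : ℝ) hne).det : ℝ) := by
    rw [hdet]
    have h1 : (0 : ℝ) ≤ (g : ℝ) * (e : ℝ) := by positivity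
    exact lt_of_le_of_ne h1 (Ne.symm hne)
  rw [coe_smul_of_det_pos hpos]
  simp [denom, num, val_upperTriangularGL]

/-- The function `τ ↦ p E₂(pτ) - E₂(τ)`, written with the slash action. -/
noncomputable def eisFun (p : ℕ) : ℍ → ℂ := E2 ∣[(2 : ℤ)] heckeDiagMatrix p - E2

lemma eisAux_heckeDiagMatrix_eq {δ : ℕ} (hδ : δ ≠ 0) :
    heckeDiagMatrix δ = upperTriangularGL (δ : ℝ) ((0 : ℤ) : ℝ) ((1 : ℕ) : ℝ)
      (by simpa using hδ) := by
  simp [heckeDiagMatrix, hδ]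

lemma eisFun_apply {p : ℕ} (hp : p ≠ 0) (τ : ℍ) :
    eisFun p τ = (p : ℂ) * E2 (heckeDiagMatrix p • τ) - E2 τ := by
  unfold eisFun
  rw [Pi.sub_apply]
  congr 1
  have h := eisAux_slash_upper E2 p 1 0 (by simpa using hp) τ
  rw [← eisAux_heckeDiagMatrix_eq hp] at h
  rw [h]
  simp only [Nat.cast_one, mul_one, one_pow, inv_one]
  ring

lemma eisAux_coe_heckeDiag_smul {p : ℕ} (hp : p ≠ 0) (τ : ℍ) :
    ((heckeDiagMatrix p • τ : ℍ) : ℂ) = (p : ℂ) * (τ : ℂ) := by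
  rw [eisAux_heckeDiagMatrix_eq hp, eisAux_coe_upper_smul]
  simp

end Fermat.Agent.S16
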