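/-
S16 piece EisForm (helper8), part 2: translates of `p E₂(pτ) - E₂(τ)` under `SL(2,ℤ)`.
-/
import Mathlib
import Fermat.Agent.S16.EisForm.Slash

set_option autoImplicit false

namespace Fermat.Agent.S16

open UpperHalfPlane hiding I
open ModularForm EisensteinSeries Filter Complex
open scoped Real Topology MatrixGroups ModularForm

/-- Hermite decomposition in `GL(2,ℝ)` with the bottom row made explicit. -/
lemma eisAux_hermite (δ : ℕ) (hδ : δ ≠ 0) (γ : SL(2, ℤ)) :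
    ∃ (σ : SL(2, ℤ)) (b : ℤ),
      heckeDiagMatrix δ * (γ : GL (Fin 2) ℝ) =
        (σ : GL (Fin 2) ℝ) *
          upperTriangularGL (S28.wp1G δ γ) b (S28.wp1E δ γ) (S28.wp1_ne hδ γ) ∧
      γ 1 0 = σ 1 0 * (S28.wp1G δ γ : ℤ) ∧
      γ 1 1 = σ 1 0 * b + σ 1 1 * (S28.wp1E δ γ : ℤ) := by
  obtain ⟨σ, b, e00, e01, e10, e11⟩ := S28.wp1_hermite_int δ hδ γ
  refine ⟨σ, b, ?_, e10, e11⟩
  have r00 : (δ : ℝ) * (γ 0 0 : ℝ) = (σ 0 0 : ℝ) * (S28.wp1G δ γ : ℝ) := by exact_mod_cast e00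
  have r01 : (δ : ℝ) * (γ 0 1 : ℝ) = (σ 0 0 : ℝ) * b + (σ 0 1 : ℝ) * (S28.wp1E δ γ : ℝ) := by
    exact_mod_cast e01
  have r10 : (γ 1 0 : ℝ) = (σ 1 0 : ℝ) * (S28.wp1G δ γ : ℝ) := by exact_mod_cast e10
  have r11 : (γ 1 1 : ℝ) = (σ 1 0 : ℝ) * b + (σ 1 1 : ℝ) * (S28.wp1E δ γ : ℝ) := by
    exact_mod_cast e11
  apply Matrix.GeneralLinearGroup.ext
  intro i j
  fin_cases i <;> fin_cases j <;>
    simp [Matrix.mul_apply, Fin.sum_univ_two, val_heckeDiagMatrix hδ, r00, r01, r10, r11]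

/-- The translate of `p E₂(pτ) - E₂(τ)` by `γ ∈ SL(2,ℤ)`, given a Hermite decomposition
`diag(p,1) γ = σ (g b; 0 e)`: the quasi-modular defects cancel. -/
lemma eisAux_slash_of_hermite {p : ℕ} (γ σ : SL(2, ℤ)) (g e : ℕ) (b : ℤ)
    (hne : (g : ℝ) * (e : ℝ) ≠ 0)
    (hmat : heckeDiagMatrix p * (γ : GL (Fin 2) ℝ) =
      (σ : GL (Fin 2) ℝ) * upperTriangularGL (g : ℝ) (b : ℝ) (e : ℝ) hne)
    (e10 : γ 1 0 = σ 1 0 * (g : ℤ)) (e11 : γ 1 1 = σ 1 0 * b + σ 1 1 * (e : ℤ)) (τ : ℍ) :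
    (eisFun p ∣[(2 : ℤ)] γ) τ =
      ((g : ℂ) / (e : ℂ)) * E2 (upperTriangularGL (g : ℝ) (b : ℝ) (e : ℝ) hne • τ) - E2 τ := by
  have hgC : (g : ℂ) ≠ 0 := by
    have : (g : ℝ) ≠ 0 := left_ne_zero_of_mul hne
    exact_mod_cast this
  have heC : (e : ℂ) ≠ 0 := by
    have : (e : ℝ) ≠ 0 := right_ne_zero_of_mul hne
    exact_mod_cast this
  have h1 : eisFun p ∣[(2 : ℤ)] γ =
      (E2 ∣[(2 : ℤ)] σ) ∣[(2 : ℤ)] upperTriangularGL (g : ℝ) (b : ℝ) (e : ℝ) hne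
        - E2 ∣[(2 : ℤ)] γ := by
    unfold eisFun
    rw [sub_eq_add_neg, SL_slash, SlashAction.add_slash, SlashAction.neg_slash,
      ← SlashAction.slash_mul, ← sub_eq_add_neg]
    congr 1
    rw [hmat, SlashAction.slash_mul, ← SL_slash]
  rw [h1, Pi.sub_apply, eisAux_slash_upper, E2_slash_action, E2_slash_action]
  simp only [Pi.sub_apply, Pi.smul_apply, smul_eq_mul, D2]
  rw [ModularGroup.denom_apply, ModularGroup.denom_apply, eisAux_coe_upper_smul]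
  have e10C : (γ 1 0 : ℂ) = (σ 1 0 : ℂ) * (g : ℂ) := by exact_mod_cast e10
  have e11C : (γ 1 1 : ℂ) = (σ 1 0 : ℂ) * (b : ℂ) + (σ 1 1 : ℂ) * (e : ℂ) := by exact_mod_cast e11
  have hden : (γ 1 0 : ℂ) * (τ : ℂ) + (γ 1 1 : ℂ) ≠ 0 := by
    have := denom_ne_zero γ τ
    rwa [ModularGroup.denom_apply] at this
  have hden' : (σ 1 0 : ℂ) * (((g : ℂ) * (τ : ℂ) + (b : ℂ)) / (e : ℂ)) + (σ 1 1 : ℂ) ≠ 0 := by
    have hh : (σ 1 0 : ℂ) * (((g : ℂ) * (τ : ℂ) + (b : ℂ)) / (e : ℂ)) + (σ 1 1 : ℂ) =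
        ((γ 1 0 : ℂ) * (τ : ℂ) + (γ 1 1 : ℂ)) / (e : ℂ) := by
      rw [e10C, e11C]; field_simp; ring
    rw [hh]
    exact div_ne_zero hden heC
  rw [e10C, e11C] at hden ⊢
  field_simp
  ring

theorem eisFun_slash_SL {p : ℕ} (hp : p ≠ 0) (γ : SL(2, ℤ)) :
    ∃ b : ℤ, ∀ τ : ℍ, (eisFun p ∣[(2 : ℤ)] γ) τ =
      ((S28.wp1G p γ : ℂ) / (S28.wp1E p γ : ℂ)) *
        E2 (upperTriangularGL (S28.wp1G p γ) b (S28.wp1E p γ) (S28.wp1_ne hp γ) • τ) - E2 τ := by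
  obtain ⟨σ, b, hmat, e10, e11⟩ := eisAux_hermite p hp γ
  exact ⟨b, fun τ => eisAux_slash_of_hermite γ σ _ _ b _ hmat e10 e11 τ⟩

end Fermat.Agent.S16
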