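/-
S16 piece EisForm (helper8), part 3: `p E₂(pτ) - E₂(τ)` is a modular form on `Γ₀(p)`.
-/
import Mathlib
import Fermat.Agent.S16.EisForm.Translate
import Fermat.Prelude.Thm_CongruenceSubgroup_one_mem_strictPeriods_Gamma0

set_option autoImplicit false

namespace Fermat.Agent.S16

open UpperHalfPlane hiding I
open ModularForm EisensteinSeries Filter Complex
open scoped Real Topology MatrixGroups ModularForm Manifold

lemma eisAux_E2_congr {z w : ℍ}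
    (h : cexp (2 * π * I * (z : ℂ)) = cexp (2 * π * I * (w : ℂ))) : E2 z = E2 w := by
  have h1 := hasSum_qExpansion_E2 (z := z)
  have h2 := hasSum_qExpansion_E2 (z := w)
  rw [h] at h1
  exact h1.unique h2

lemma eisAux_wp1G_of_mem {p : ℕ} {γ : SL(2, ℤ)} (hγ : γ ∈ CongruenceSubgroup.Gamma0 p) :
    S28.wp1G p γ = p := by
  rw [CongruenceSubgroup.Gamma0_mem] at hγ
  have hdvd : (p : ℤ) ∣ γ 1 0 := (ZMod.intCast_zmod_eq_zero_iff_dvd _ _).mp hγ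
  unfold S28.wp1G
  have h1 : Int.gcd (p : ℤ) (γ 1 0) = Nat.gcd p (γ 1 0).natAbs := by
    simp [Int.gcd]
  rw [h1]
  apply Nat.gcd_eq_left
  exact Int.natCast_dvd.mp hdvd

theorem eisFun_slash_Gamma0 {p : ℕ} (hp : p ≠ 0) {γ : SL(2, ℤ)}
    (hγ : γ ∈ CongruenceSubgroup.Gamma0 p) : eisFun p ∣[(2 : ℤ)] γ = eisFun p := by
  obtain ⟨σ, b, hmat, e10, e11⟩ := eisAux_hermite p hp γ
  have hG : S28.wp1G p γ = p := eisAux_wp1G_of_mem hγ
  have hE : S28.wp1E p γ = 1 := by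
    unfold S28.wp1E
    rw [hG]
    exact Nat.div_self (Nat.pos_of_ne_zero hp)
  funext τ
  rw [eisAux_slash_of_hermite γ σ _ _ b _ hmat e10 e11 τ, eisFun_apply hp]
  have hcongr : E2 (upperTriangularGL (S28.wp1G p γ : ℝ) (b : ℝ) (S28.wp1E p γ : ℝ)
      (S28.wp1_ne hp γ) • τ) = E2 (heckeDiagMatrix p • τ) := by
    apply eisAux_E2_congr
    rw [eisAux_coe_upper_smul, eisAux_coe_heckeDiag_smul hp, hG, hE]
    rw [show 2 * (π : ℂ) * I * (((p : ℂ) * (τ : ℂ) + (b : ℂ)) / ((1 : ℕ) : ℂ)) =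
      2 * (π : ℂ) * I * ((p : ℂ) * (τ : ℂ)) + (b : ℂ) * (2 * (π : ℂ) * I) by push_cast; ring,
      Complex.exp_add, Complex.exp_int_mul_two_pi_mul_I, mul_one]
  rw [hcongr, hG, hE]
  simp

theorem mdifferentiable_eisFun (p : ℕ) : MDifferentiable 𝓘(ℂ) 𝓘(ℂ) (eisFun p) :=
  (E2_mdifferentiable.slash 2 (heckeDiagMatrix p)).sub E2_mdifferentiable

theorem isBoundedAtImInfty_eisFun_slash {p : ℕ} (hp : p ≠ 0) (γ : SL(2, ℤ)) :
    IsBoundedAtImInfty (eisFun p ∣[(2 : ℤ)] γ) := by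
  obtain ⟨b, hb⟩ := eisFun_slash_SL hp γ
  have h0 : (upperTriangularGL (S28.wp1G p γ : ℝ) (b : ℝ) (S28.wp1E p γ : ℝ)
      (S28.wp1_ne hp γ)) 1 0 = 0 := by
    simp [val_upperTriangularGL]
  have h1 : IsBoundedAtImInfty (fun τ : ℍ => E2 (upperTriangularGL (S28.wp1G p γ : ℝ) (b : ℝ)
      (S28.wp1E p γ : ℝ) (S28.wp1_ne hp γ) • τ)) :=
    isBoundedAtImInfty_E2.comp_tendsto (UpperHalfPlane.tendsto_smul_atImInfty h0)
  have h2 : IsBoundedAtImInfty (fun τ : ℍ => ((S28.wp1G p γ : ℂ) / (S28.wp1E p γ : ℂ)) *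
      E2 (upperTriangularGL (S28.wp1G p γ : ℝ) (b : ℝ)
      (S28.wp1E p γ : ℝ) (S28.wp1_ne hp γ) • τ)) := by
    have := Filter.BoundedAtFilter.smul ((S28.wp1G p γ : ℂ) / (S28.wp1E p γ : ℂ)) h1
    exact this
  have h3 := h2.add isBoundedAtImInfty_E2.neg
  have heq : eisFun p ∣[(2 : ℤ)] γ = (fun τ : ℍ => ((S28.wp1G p γ : ℂ) / (S28.wp1E p γ : ℂ)) *
      E2 (upperTriangularGL (S28.wp1G p γ : ℝ) (b : ℝ)
      (S28.wp1E p γ : ℝ) (S28.wp1_ne hp γ) • τ)) + (-E2) := by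
    funext τ
    rw [hb τ]
    simp [sub_eq_add_neg]
  rw [heq]
  exact h3

/-- The modular form `p E₂(pτ) - E₂(τ)` on `Γ₀(p)`. -/
noncomputable def eisMF (p : ℕ) [NeZero p] : ModularForm (CongruenceSubgroup.Gamma0 p) 2 where
  toFun := eisFun p
  slash_action_eq' := by
    intro g hg
    obtain ⟨γ, hγ, rfl⟩ := Subgroup.mem_map.mp hg
    have := eisFun_slash_Gamma0 (NeZero.ne p) hγ
    rwa [SL_slash] at this
  holo' := mdifferentiable_eisFun p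
  bdd_at_cusps' := by
    intro c hc
    rw [Subgroup.IsArithmetic.isCusp_iff_isCusp_SL2Z] at hc
    rw [OnePoint.isBoundedAt_iff_forall_SL2Z hc]
    intro γ _
    exact isBoundedAtImInfty_eisFun_slash (NeZero.ne p) γ

end Fermat.Agent.S16
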