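/-
S16 piece EisForm (helper8), part 4: the `q`-expansion of `p E₂(pτ) - E₂(τ)`.
-/
import Mathlib
import Fermat.Agent.S16.EisForm.Modular

set_option autoImplicit false

namespace Fermat.Agent.S16

open UpperHalfPlane hiding I
open ModularForm EisensteinSeries Filter Complex ModularFormClass
open scoped Real Topology MatrixGroups ModularForm Manifold

/-- `σ₁(n) = σ'(n) + p σ₁(n/p) [p ∣ n]`. -/
lemma eisAux_sigma_split (p n : ℕ) (hp : 0 < p) (hn : 0 < n) :
    ArithmeticFunction.sigma 1 n =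
      sigmaP p n + (if p ∣ n then p * ArithmeticFunction.sigma 1 (n / p) else 0) := by
  rw [ArithmeticFunction.sigma_one_apply]
  unfold sigmaP
  rw [← Finset.sum_filter_not_add_sum_filter (s := n.divisors) (p := fun d => p ∣ d)]
  congr 1
  split_ifs with hpn
  · obtain ⟨m, rfl⟩ := hpn
    have hm : 0 < m := Nat.pos_of_mul_pos_left hn
    rw [Nat.mul_div_cancel_left m hp, ArithmeticFunction.sigma_one_apply, Finset.mul_sum]
    refine Finset.sum_bij' (fun d _ => d / p) (fun d _ => p * d) ?_ ?_ ?_ ?_ ?_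
    · intro d hd
      rw [Finset.mem_filter, Nat.mem_divisors] at hd
      obtain ⟨⟨hd1, -⟩, k, rfl⟩ := hd
      rw [Nat.mul_div_cancel_left k hp, Nat.mem_divisors]
      exact ⟨(Nat.mul_dvd_mul_iff_left hp).mp hd1, hm.ne'⟩
    · intro d hd
      rw [Nat.mem_divisors] at hd
      rw [Finset.mem_filter, Nat.mem_divisors]
      exact ⟨⟨Nat.mul_dvd_mul_left p hd.1, hn.ne'⟩, dvd_mul_right p d⟩
    · intro d hd
      rw [Finset.mem_filter] at hd
      exact Nat.mul_div_cancel' hd.2
    · intro d _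
      exact Nat.mul_div_cancel_left d hp
    · intro d hd
      rw [Finset.mem_filter] at hd
      exact (Nat.mul_div_cancel' hd.2).symm
  · apply Finset.sum_eq_zero
    intro d hd
    rw [Finset.mem_filter, Nat.mem_divisors] at hd
    exact absurd (dvd_trans hd.2 hd.1.1) hpn

/-- coefficients of `E₂` -/
noncomputable def eisAuxC (m : ℕ) : ℂ := if m = 0 then 1 else -24 * (ArithmeticFunction.sigma 1 m : ℂ)

/-- coefficients of `p E₂(pτ)` -/
noncomputable def eisAuxD (p n : ℕ) : ℂ := if p ∣ n then (p : ℂ) * eisAuxC (n / p) else 0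

/-- coefficients of `p E₂(pτ) - E₂(τ)` -/
noncomputable def eisCoeff (p n : ℕ) : ℂ := if n = 0 then (p : ℂ) - 1 else 24 * (sigmaP p n : ℂ)

lemma eisCoeff_eq {p : ℕ} (hp : 0 < p) (n : ℕ) : eisCoeff p n = eisAuxD p n - eisAuxC n := by
  unfold eisCoeff eisAuxD
  rcases Nat.eq_zero_or_pos n with rfl | hn
  · simp [eisAuxC]
  · rw [if_neg hn.ne']
    have hs := eisAux_sigma_split p n hp hn
    have hsC : (ArithmeticFunction.sigma 1 n : ℂ) = (sigmaP p n : ℂ) +
        (if p ∣ n then (p : ℂ) * (ArithmeticFunction.sigma 1 (n / p) : ℂ) else 0) := by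
      rw [hs]
      split_ifs <;> push_cast <;> ring
    by_cases hpn : p ∣ n
    · rw [if_pos hpn] at hsC ⊢
      have hnp : n / p ≠ 0 := by
        obtain ⟨m, rfl⟩ := hpn
        rw [Nat.mul_div_cancel_left m hp]
        rintro rfl
        simp at hn
      unfold eisAuxC
      rw [if_neg hnp, if_neg hn.ne', hsC]
      ring
    · rw [if_neg hpn] at hsC ⊢
      unfold eisAuxC
      rw [if_neg hn.ne', hsC]
      ring

theorem hasSum_eisFun {p : ℕ} (hp : p ≠ 0) (τ : ℍ) :
    HasSum (fun m : ℕ => eisCoeff p m • Function.Periodic.qParam 1 (τ : ℂ) ^ m) (eisFun p τ) := by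
  have hq : Function.Periodic.qParam 1 (τ : ℂ) = cexp (2 * π * I * (τ : ℂ)) := by
    simp [Function.Periodic.qParam]
  rw [hq]
  set q := cexp (2 * π * I * (τ : ℂ)) with hqdef
  have h2 : HasSum (fun m : ℕ => eisAuxC m • q ^ m) (E2 τ) := hasSum_qExpansion_E2 (z := τ)
  have h1 : HasSum (fun m : ℕ => eisAuxC m • (q ^ p) ^ m) (E2 (heckeDiagMatrix p • τ)) := by
    have := hasSum_qExpansion_E2 (z := heckeDiagMatrix p • τ)
    rw [eisAux_coe_heckeDiag_smul hp] at this
    have hqp : cexp (2 * π * I * ((p : ℂ) * (τ : ℂ))) = q ^ p := by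
      rw [hqdef, ← Complex.exp_nat_mul]
      congr 1
      ring
    rw [hqp] at this
    exact this
  have h1' : HasSum (fun n : ℕ => eisAuxD p n • q ^ n) ((p : ℂ) * E2 (heckeDiagMatrix p • τ)) := by
    have hinj : Function.Injective (fun m : ℕ => p * m) :=
      fun a b h => Nat.eq_of_mul_eq_mul_left (Nat.pos_of_ne_zero hp) h
    have hzero : ∀ n ∉ Set.range (fun m : ℕ => p * m), eisAuxD p n • q ^ n = 0 := by
      intro n hn
      have : ¬ p ∣ n := by
        rintro ⟨m, rfl⟩
        exact hn ⟨m, rfl⟩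
      simp [eisAuxD, this]
    rw [← hinj.hasSum_iff hzero]
    have hfun : ((fun n : ℕ => eisAuxD p n • q ^ n) ∘ (fun m : ℕ => p * m)) =
        fun m : ℕ => (p : ℂ) * (eisAuxC m • (q ^ p) ^ m) := by
      funext m
      simp only [Function.comp_apply, eisAuxD, dvd_mul_right, if_true,
        Nat.mul_div_cancel_left m (Nat.pos_of_ne_zero hp), smul_eq_mul, pow_mul]
      ring
    rw [hfun]
    exact h1.mul_left (p : ℂ)
  have h3 := h1'.sub h2
  rw [eisFun_apply hp]
  have hfun : (fun m : ℕ => eisCoeff p m • q ^ m) =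
      fun n : ℕ => eisAuxD p n • q ^ n - eisAuxC n • q ^ n := by
    funext n
    rw [eisCoeff_eq (Nat.pos_of_ne_zero hp), sub_smul]
  rw [hfun]
  exact h3

/-- The `q`-expansion of `eisMF p`. -/
theorem qCoeff_eisMF (p : ℕ) [NeZero p] (n : ℕ) :
    qCoeff (eisMF p) n = eisCoeff p n := by
  unfold qCoeff
  exact (ModularFormClass.qExpansion_coeff_unique (f := eisMF p) one_pos
    (CongruenceSubgroup.one_mem_strictPeriods_Gamma0 p)
    (fun τ => hasSum_eisFun (NeZero.ne p) τ) n).symm

/-- `EisForm p` for every `p ≠ 0`. -/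
theorem eisForm_of_ne_zero (p : ℕ) [NeZero p] : EisForm p := by
  refine ⟨eisMF p, ?_, ?_⟩
  · rw [qCoeff_eisMF]
    simp [eisCoeff]
  · intro k hk
    rw [qCoeff_eisMF]
    have : k ≠ 0 := by omega
    simp [eisCoeff, this]

end Fermat.Agent.S16
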